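/-
Helper library (helper2): Kummer's lemma via the logarithmic Euler derivative on the truncated
polynomial ring `F_p[X]/(X^(p-1))`. General part (all odd primes).
-/
import Mathlib

set_option autoImplicit false

open Polynomial NumberField

namespace Fermat.Agent.Lib.FltRegular.Kummer

section LogDeriv

variable {k R : Type*} [CommRing k] [CommRing R] [Algebra k R]

/-- The logarithmic derivative `u ↦ D u / u` as a homomorphism from units to the additive group. -/
noncomputable def logDeriv (D : Derivation k R R) : Rˣ →* Multiplicative R where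
  toFun u := Multiplicative.ofAdd (D (u : R) * ((u⁻¹ : Rˣ) : R))
  map_one' := by simp
  map_mul' u v := by
    rw [← ofAdd_add]
    congr 1
    rw [Units.val_mul, Derivation.leibniz, mul_inv, Units.val_mul, smul_eq_mul, smul_eq_mul]
    have hu : (u : R) * ((u⁻¹ : Rˣ) : R) = 1 := by simp
    have hv : (v : R) * ((v⁻¹ : Rˣ) : R) = 1 := by simp
    linear_combination (D (v : R) * ((v⁻¹ : Rˣ) : R)) * hu + (D (u : R) * ((u⁻¹ : Rˣ) : R)) * hv

theorem logDeriv_apply (D : Derivation k R R) (u : Rˣ) :
    Multiplicative.toAdd (logDeriv D u) = D (u : R) * ((u⁻¹ : Rˣ) : R) := rfl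

/-- Computing the logarithmic derivative from an explicit inverse. -/
theorem logDeriv_eq_of_mul_eq_one (D : Derivation k R R) (u : Rˣ) {w : R} (h : (u : R) * w = 1) :
    Multiplicative.toAdd (logDeriv D u) = D (u : R) * w := by
  rw [logDeriv_apply]
  congr 1
  exact (Units.inv_eq_of_mul_eq_one_right h)

/-- The logarithmic derivative vanishes on units coming from the base ring. -/
theorem logDeriv_eq_zero_of_algebraMap (D : Derivation k R R) (u : Rˣ) {c : k}
    (h : (u : R) = algebraMap k R c) : Multiplicative.toAdd (logDeriv D u) = 0 := by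
  rw [logDeriv_apply, h, Derivation.map_algebraMap, zero_mul]

end LogDeriv

section TR

variable (p : ℕ) [hp : Fact p.Prime]

/-- The truncated polynomial ring `F_p[X]/(X^(p-1))`. -/
abbrev TR : Type := (ZMod p)[X] ⧸ Ideal.span {(X : (ZMod p)[X]) ^ (p - 1)}

/-- The quotient map. -/
noncomputable def mkA : (ZMod p)[X] →ₐ[ZMod p] TR p := Ideal.Quotient.mkₐ (ZMod p) _

theorem mkA_surjective : Function.Surjective (mkA p) := Ideal.Quotient.mkₐ_surjective _ _

theorem mkA_eq_zero_iff (f : (ZMod p)[X]) : mkA p f = 0 ↔ X ^ (p - 1) ∣ f := by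
  rw [mkA, Ideal.Quotient.mkₐ_eq_mk, Ideal.Quotient.eq_zero_iff_mem, Ideal.mem_span_singleton]

theorem mkA_X_pow : mkA p (X ^ (p - 1)) = 0 := (mkA_eq_zero_iff p _).mpr dvd_rfl

/-- The Euler derivation `X d/dX` on polynomials. -/
noncomputable def eulerPoly : Derivation (ZMod p) (ZMod p)[X] (ZMod p)[X] :=
  (X : (ZMod p)[X]) • Polynomial.derivative'

theorem eulerPoly_apply (f : (ZMod p)[X]) : eulerPoly p f = X * derivative f := rfl

theorem mkA_eulerPoly_eq_zero (f : (ZMod p)[X]) (h : mkA p f = 0) : mkA p (eulerPoly p f) = 0 := by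
  rw [mkA_eq_zero_iff] at h ⊢
  obtain ⟨q, rfl⟩ := h
  rw [eulerPoly_apply, derivative_mul, derivative_X_pow]
  have hp1 : 1 ≤ p - 1 := by have := hp.out.two_le; omega
  have : (X : (ZMod p)[X]) ^ (p - 1) = X ^ (p - 1 - 1) * X := by
    rw [← pow_succ, Nat.sub_add_cancel hp1]
  refine ⟨C ((p - 1 : ℕ) : ZMod p) * q + X * derivative q, ?_⟩
  rw [this]
  ring

/-- The Euler derivation on the truncated polynomial ring. -/
noncomputable def euler : Derivation (ZMod p) (TR p) (TR p) :=
  Derivation.liftOfSurjective (f := mkA p) (mkA_surjective p) (d := eulerPoly p)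
    (mkA_eulerPoly_eq_zero p)

theorem euler_mkA (f : (ZMod p)[X]) : euler p (mkA p f) = mkA p (X * derivative f) := by
  rw [euler, Derivation.liftOfSurjective_apply, eulerPoly_apply]

end TR

section Psi

variable (p : ℕ) [hp : Fact p.Prime]

instance charP_TR : CharP (TR p) p := by
  have : Nontrivial (TR p) := by
    rw [Ideal.Quotient.nontrivial_iff]
    intro h
    rw [Ideal.span_singleton_eq_top] at h
    have h1 : 1 ≤ p - 1 := by have := hp.out.two_le; omega
    have := Polynomial.degree_eq_zero_of_isUnit h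
    rw [degree_X_pow] at this
    have h2 : (p - 1 : ℕ) = 0 := by exact_mod_cast this
    omega
  exact charP_of_injective_algebraMap (algebraMap (ZMod p) (TR p)).injective p

theorem cyclotomic_eq (R : Type*) [CommRing R] [CharP R p] :
    cyclotomic p R = (X - 1) ^ (p - 1) := by
  have := cyclotomic_mul_prime_pow_eq R (p := p) (m := 1) (by simp [hp.out.ne_one] : ¬ p ∣ 1)
    (k := 1) one_pos
  simpa using this

variable {K : Type*} [Field K] [NumberField K] [IsCyclotomicExtension {p} ℚ K]
variable {ζ : K} (hζ : IsPrimitiveRoot ζ p)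

theorem aeval_minpoly_gen (hp2 : p ≠ 2) :
    aeval (mkA p (1 - X)) (minpoly ℤ hζ.integralPowerBasis.gen) = 0 := by
  have hmin : minpoly ℤ hζ.integralPowerBasis.gen = cyclotomic p ℤ := by
    rw [hζ.integralPowerBasis_gen, cyclotomic_eq_minpoly hζ hp.out.pos]
    exact (minpoly.algebraMap_eq RingOfIntegers.coe_injective _).symm
  rw [hmin, aeval_def, eval₂_eq_eval_map, map_cyclotomic, cyclotomic_eq p (TR p)]
  simp only [eval_pow, eval_sub, eval_X, eval_one]
  have heven : Even (p - 1) := hp.out.even_sub_one hp2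
  have : mkA p (1 - X) - 1 = mkA p (-X) := by
    rw [← map_one (mkA p), ← map_sub]
    congr 1
    ring
  rw [this, ← map_pow, heven.neg_pow, mkA_X_pow]

/-- The ring homomorphism `𝓞 K → F_p[X]/(X^(p-1))` sending `ζ` to `1 - X`. -/
noncomputable def psi (hp2 : p ≠ 2) : 𝓞 K →+* TR p :=
  (hζ.integralPowerBasis.lift (mkA p (1 - X)) (aeval_minpoly_gen p hζ hp2)).toRingHom

theorem psi_toInteger (hp2 : p ≠ 2) : psi p hζ hp2 hζ.toInteger = mkA p (1 - X) := by
  have := hζ.integralPowerBasis.lift_gen (mkA p (1 - X)) (aeval_minpoly_gen p hζ hp2)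
  rw [hζ.integralPowerBasis_gen] at this
  exact this

theorem psi_natCast_self (hp2 : p ≠ 2) : psi p hζ hp2 (p : 𝓞 K) = 0 := by
  rw [map_natCast]
  exact CharP.cast_eq_zero (TR p) p

end Psi

end Fermat.Agent.Lib.FltRegular.Kummer
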