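import Mathlib

/-!
# The counting step in Kummer's lemma

Let `K = ℚ(ζ_p)`, `p` an odd prime. By Dirichlet's unit theorem the group of units of `𝓞 K` is
generated by `(p - 1) / 2` elements (a generator of the torsion subgroup and a fundamental system of
`(p - 3) / 2` units). Hence if `L` is an additive map from the units to an `𝔽_p`-vector space whose
image contains `(p - 1) / 2` linearly independent vectors, then the kernel of `L` consists exactly
of the `p`-th powers.
-/

set_option autoImplicit false

open NumberField NumberField.Units Module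

namespace Fermat.Agent.Lib.FltRegular.Kummer

section rank

variable {p : ℕ} [hp : Fact p.Prime] (K : Type*) [Field K] [NumberField K]
  [IsCyclotomicExtension {p} ℚ K]

/-- The unit rank of the `p`-th cyclotomic field, `p` an odd prime. -/
theorem rank_add_one_eq (hp2 : p ≠ 2) : rank K + 1 = (p - 1) / 2 := by
  have h3 : 2 < p := lt_of_le_of_ne hp.out.two_le (Ne.symm hp2)
  have : NeZero p := ⟨hp.out.ne_zero⟩
  have h1 : Fintype.card (InfinitePlace K) = (p - 1) / 2 := by
    rw [InfinitePlace.card_eq_nrRealPlaces_add_nrComplexPlaces,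
      IsCyclotomicExtension.Rat.nrRealPlaces_eq_zero (n := p) K h3, zero_add,
      IsCyclotomicExtension.Rat.nrComplexPlaces_eq_totient_div_two (n := p),
      Nat.totient_prime hp.out]
  have h2 : 0 < (p - 1) / 2 := by omega
  unfold rank
  omega

end rank

section generators

variable (K : Type*) [Field K] [NumberField K]

/-- The units of a number field are generated by `rank K + 1` elements: every unit is a monomial
in these generators. -/
theorem exists_generators :
    ∃ gen : Option (Fin (rank K)) → (𝓞 K)ˣ, ∀ x : (𝓞 K)ˣ,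
      ∃ e : Option (Fin (rank K)) → ℤ, x = ∏ j, gen j ^ e j := by
  obtain ⟨g, hg⟩ := IsCyclic.exists_generator (α := torsion K)
  refine ⟨fun j => j.elim (g : (𝓞 K)ˣ) (fundSystem K), fun x => ?_⟩
  obtain ⟨⟨t, e⟩, hx, -⟩ := exist_unique_eq_mul_prod K x
  obtain ⟨k, hk⟩ := Subgroup.mem_zpowers_iff.mp (hg t)
  refine ⟨fun j => j.elim k e, ?_⟩
  rw [Fintype.prod_option]
  simp only [Option.elim_none, Option.elim_some]
  rw [hx]
  congr 1
  rw [← hk]
  simp

end generators

section main

variable {p : ℕ} [hp : Fact p.Prime] (K : Type*) [Field K] [NumberField K]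
  [IsCyclotomicExtension {p} ℚ K] {V : Type*} [AddCommGroup V] [Module (ZMod p) V]

/-- **Counting step of Kummer's lemma.** If `L` is an additive map from the units of `ℤ[ζ_p]` to an
`𝔽_p`-vector space whose image contains `(p - 1) / 2` linearly independent vectors, then
every unit in the kernel of `L` is a `p`-th power. -/
theorem exists_pow_eq_of_map_eq_zero_add (hp2 : p ≠ 2) (L : Additive (𝓞 K)ˣ →+ V)
    (w : Fin ((p - 1) / 2) → (𝓞 K)ˣ)
    (hw : LinearIndependent (ZMod p) (fun i => L (Additive.ofMul (w i))))
    (u : (𝓞 K)ˣ) (hu : L (Additive.ofMul u) = 0) : ∃ v : (𝓞 K)ˣ, u = v ^ p := by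
  classical
  obtain ⟨gen, hgen⟩ := exists_generators K
  set f : Option (Fin (rank K)) → V := fun j => L (Additive.ofMul (gen j)) with hf
  -- the value of `L` on a monomial
  have hL : ∀ e : Option (Fin (rank K)) → ℤ,
      L (Additive.ofMul (∏ j, gen j ^ e j)) = ∑ j, ((e j : ℤ) : ZMod p) • f j := by
    intro e
    rw [ofMul_prod, map_sum]
    refine Finset.sum_congr rfl fun j _ => ?_
    rw [ofMul_zpow, map_zsmul, hf, Int.cast_smul_eq_zsmul]
  -- the image of `L` is contained in the span of the `f j`
  have hmem : ∀ x : (𝓞 K)ˣ, L (Additive.ofMul x) ∈ Submodule.span (ZMod p) (Set.range f) := by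
    intro x
    obtain ⟨e, rfl⟩ := hgen x
    rw [hL]
    exact Submodule.sum_mem _ fun j _ =>
      Submodule.smul_mem _ _ (Submodule.subset_span (Set.mem_range_self j))
  -- hence the `f j` are linearly independent
  have hle : Submodule.span (ZMod p) (Set.range fun i => L (Additive.ofMul (w i))) ≤
      Submodule.span (ZMod p) (Set.range f) := by
    rw [Submodule.span_le]
    rintro _ ⟨i, rfl⟩
    exact hmem _
  have hfin : Module.Finite (ZMod p) (Submodule.span (ZMod p) (Set.range f)) :=
    FiniteDimensional.span_of_finite _ (Set.finite_range f)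
  have h1 := Submodule.finrank_mono hle
  rw [finrank_span_eq_card hw, Fintype.card_fin] at h1
  have h2 : (Set.range f).finrank (ZMod p) ≤ Fintype.card (Option (Fin (rank K))) :=
    finrank_range_le_card f
  have hcard : Fintype.card (Option (Fin (rank K))) = (p - 1) / 2 := by
    rw [Fintype.card_option, Fintype.card_fin, rank_add_one_eq K hp2]
  have hfli : LinearIndependent (ZMod p) f := by
    rw [linearIndependent_iff_card_eq_finrank_span, hcard]
    rw [hcard] at h2
    exact le_antisymm h1 h2
  -- conclusion
  obtain ⟨e, rfl⟩ := hgen u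
  rw [hL] at hu
  have he : ∀ j, ((e j : ℤ) : ZMod p) = 0 := fun j =>
    (Fintype.linearIndependent_iff.mp hfli) _ hu j
  have he' : ∀ j, ∃ k : ℤ, e j = p * k := fun j =>
    (ZMod.intCast_zmod_eq_zero_iff_dvd (e j) p).mp (he j)
  choose e' he' using he'
  refine ⟨∏ j, gen j ^ e' j, ?_⟩
  rw [← Finset.prod_pow]
  refine Finset.prod_congr rfl fun j _ => ?_
  rw [he' j, mul_comm, zpow_mul, zpow_natCast]

/-- **Counting step of Kummer's lemma**, multiplicative version. -/
theorem exists_pow_eq_of_map_eq_zero (hp2 : p ≠ 2) (L : (𝓞 K)ˣ →* Multiplicative V)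
    (w : Fin ((p - 1) / 2) → (𝓞 K)ˣ)
    (hw : LinearIndependent (ZMod p) (fun i => Multiplicative.toAdd (L (w i))))
    (u : (𝓞 K)ˣ) (hu : L u = 1) : ∃ v : (𝓞 K)ˣ, u = v ^ p :=
  exists_pow_eq_of_map_eq_zero_add K hp2 (MonoidHom.toAdditiveLeft L) w hw u
    (by simpa using congrArg Multiplicative.toAdd hu)

end main

end Fermat.Agent.Lib.FltRegular.Kummer
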