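/-
Helper library (helper2): Kummer's lemma from the independence of the logarithmic derivatives of
`ζ` and of `r = rank` further units (general part, all odd primes).
-/
import Mathlib
import Fermat.Agent.Lib.FltRegular.Kummer.Basic

set_option autoImplicit false

open Polynomial NumberField NumberField.Units

namespace Fermat.Agent.Lib.FltRegular.Kummer

variable (p : ℕ) [hp : Fact p.Prime]
variable {K : Type*} [Field K] [NumberField K] [IsCyclotomicExtension {p} ℚ K]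
variable {ζ : K} (hζ : IsPrimitiveRoot ζ p)

/-- The homomorphism `Λ : (𝓞 K)ˣ → (F_p[X]/(X^(p-1)), +)`. -/
noncomputable def lam (hp2 : p ≠ 2) : (𝓞 K)ˣ →* Multiplicative (TR p) :=
  (logDeriv (euler p)).comp (Units.map (psi p hζ hp2 : 𝓞 K →* TR p))

/-- additive version -/
noncomputable def lamA (hp2 : p ≠ 2) (u : (𝓞 K)ˣ) : TR p := Multiplicative.toAdd (lam p hζ hp2 u)

theorem lamA_mul (hp2 : p ≠ 2) (u v : (𝓞 K)ˣ) :
    lamA p hζ hp2 (u * v) = lamA p hζ hp2 u + lamA p hζ hp2 v := by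
  simp [lamA, map_mul]

theorem lamA_one (hp2 : p ≠ 2) : lamA p hζ hp2 1 = 0 := by
  simp [lamA]

theorem lamA_pow (hp2 : p ≠ 2) (u : (𝓞 K)ˣ) (n : ℕ) :
    lamA p hζ hp2 (u ^ n) = n • lamA p hζ hp2 u := by
  simp [lamA, map_pow]

theorem lamA_zpow (hp2 : p ≠ 2) (u : (𝓞 K)ˣ) (n : ℤ) :
    lamA p hζ hp2 (u ^ n) = n • lamA p hζ hp2 u := by
  simp [lamA, map_zpow]

theorem lamA_prod (hp2 : p ≠ 2) {ι : Type*} (s : Finset ι) (f : ι → (𝓞 K)ˣ) :
    lamA p hζ hp2 (∏ i ∈ s, f i) = ∑ i ∈ s, lamA p hζ hp2 (f i) := by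
  classical
  induction s using Finset.induction_on with
  | empty => simp [lamA_one]
  | insert a s ha ih => rw [Finset.prod_insert ha, Finset.sum_insert ha, lamA_mul, ih]

theorem lamA_eq (hp2 : p ≠ 2) (u : (𝓞 K)ˣ) {w : TR p}
    (h : psi p hζ hp2 (u : 𝓞 K) * w = 1) :
    lamA p hζ hp2 u = euler p (psi p hζ hp2 (u : 𝓞 K)) * w :=
  logDeriv_eq_of_mul_eq_one (euler p) (Units.map (psi p hζ hp2 : 𝓞 K →* TR p) u) h

/-- `Λ` kills units congruent to an integer modulo `p`. -/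
theorem lamA_eq_zero_of_dvd (hp2 : p ≠ 2) (u : (𝓞 K)ˣ) {n : ℤ}
    (h : (p : 𝓞 K) ∣ (u : 𝓞 K) - n) : lamA p hζ hp2 u = 0 := by
  apply logDeriv_eq_zero_of_algebraMap (euler p) _ (c := (n : ZMod p))
  obtain ⟨y, hy⟩ := h
  have hu : (u : 𝓞 K) = n + (p : 𝓞 K) * y := by rw [← hy]; ring
  change psi p hζ hp2 (u : 𝓞 K) = _
  rw [hu, map_add, map_mul, psi_natCast_self, zero_mul, add_zero, map_intCast, map_intCast]

/-- `Λ` kills `p`-th powers. -/
theorem lamA_pow_self (hp2 : p ≠ 2) (v : (𝓞 K)ˣ) : lamA p hζ hp2 (v ^ p) = 0 := by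
  rw [lamA_pow, ← Nat.cast_smul_eq_nsmul (TR p), CharP.cast_eq_zero (TR p) p, smul_eq_mul, zero_mul]

/-- The unit `ζ`. -/
noncomputable def zetaUnit : (𝓞 K)ˣ :=
  (hζ.toInteger_isPrimitiveRoot.isUnit hp.out.ne_zero).unit

omit [NumberField K] [IsCyclotomicExtension {p} ℚ K] in
theorem coe_zetaUnit : ((zetaUnit p hζ : (𝓞 K)ˣ) : 𝓞 K) = hζ.toInteger := rfl

end Fermat.Agent.Lib.FltRegular.Kummer

namespace Fermat.Agent.Lib.FltRegular.Kummer

variable (p : ℕ) [hp : Fact p.Prime]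
variable {K : Type*} [Field K] [NumberField K] [IsCyclotomicExtension {p} ℚ K]
variable {ζ : K} (hζ : IsPrimitiveRoot ζ p)

theorem torsionOrder_eq (hp2 : p ≠ 2) : torsionOrder K = 2 * p := by
  have : NeZero p := ⟨hp.out.ne_zero⟩
  rw [IsCyclotomicExtension.Rat.torsionOrder_eq (n := p) (K := K), if_neg]
  rw [Nat.not_even_iff_odd]
  exact hp.out.odd_of_ne_two hp2

/-- The square of a torsion unit is a power of `ζ`. -/
theorem torsion_sq (hp2 : p ≠ 2) (w : (𝓞 K)ˣ) (hw : w ∈ torsion K) :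
    ∃ a : ℕ, a < p ∧ w ^ 2 = (zetaUnit p hζ) ^ a := by
  have : NeZero p := ⟨hp.out.ne_zero⟩
  have h1 : w ^ (2 * p) = 1 := by
    rw [← torsionOrder_eq p hp2 (K := K)]
    rw [← rootsOfUnity_eq_torsion] at hw
    exact (mem_rootsOfUnity _ _).mp hw
  have h2 : (((w ^ 2 : (𝓞 K)ˣ) : 𝓞 K)) ^ p = 1 := by
    rw [← Units.val_pow_eq_pow_val, ← pow_mul, h1, Units.val_one]
  obtain ⟨i, hi, hi'⟩ := hζ.toInteger_isPrimitiveRoot.eq_pow_of_pow_eq_one h2
  refine ⟨i, hi, ?_⟩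
  apply Units.ext
  rw [← hi', Units.val_pow_eq_pow_val, coe_zetaUnit]

theorem two_ne_zero_zmod (hp2 : p ≠ 2) : (2 : ZMod p) ≠ 0 := by
  intro h
  have h2 : ((2 : ℕ) : ZMod p) = 0 := by exact_mod_cast h
  rw [ZMod.natCast_eq_zero_iff] at h2
  have := Nat.le_of_dvd (by norm_num) h2
  have := hp.out.two_le
  omega

/-- The family of logarithmic derivatives of `ζ` and of a family of units. -/
noncomputable def fam (hp2 : p ≠ 2) {r : ℕ} (γ : Fin r → (𝓞 K)ˣ) : Option (Fin r) → TR p :=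
  fun i ↦ i.elim (lamA p hζ hp2 (zetaUnit p hζ)) (fun j ↦ lamA p hζ hp2 (γ j))

theorem lamA_mem_span (hp2 : p ≠ 2) (x : (𝓞 K)ˣ) :
    lamA p hζ hp2 x ∈ Submodule.span (ZMod p) (Set.range (fam p hζ hp2 (fundSystem K))) := by
  obtain ⟨⟨w, e⟩, hx, -⟩ := exist_unique_eq_mul_prod K x
  simp only at hx
  obtain ⟨a, -, ha⟩ := torsion_sq p hζ hp2 (w : (𝓞 K)ˣ) w.2
  have hw : lamA p hζ hp2 (w : (𝓞 K)ˣ) =
      ((2 : ZMod p)⁻¹ * (a : ZMod p)) • lamA p hζ hp2 (zetaUnit p hζ) := by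
    have h2 := congrArg (lamA p hζ hp2) ha
    rw [lamA_pow, lamA_pow] at h2
    rw [mul_smul, Nat.cast_smul_eq_nsmul, ← h2, ← Nat.cast_smul_eq_nsmul (ZMod p), smul_smul]
    simp [inv_mul_cancel₀ (two_ne_zero_zmod p hp2)]
  rw [hx, lamA_mul, lamA_prod, hw]
  refine Submodule.add_mem _ (Submodule.smul_mem _ _ (Submodule.subset_span ⟨none, rfl⟩)) ?_
  refine Submodule.sum_mem _ fun i _ ↦ ?_
  rw [lamA_zpow, ← Int.cast_smul_eq_zsmul (ZMod p)]
  exact Submodule.smul_mem _ _ (Submodule.subset_span ⟨some i, rfl⟩)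

/-- If the logarithmic derivatives of `ζ` and of `rank K` units are independent, so are those of
`ζ` and the fundamental system. -/
theorem linearIndependent_fundSystem (hp2 : p ≠ 2) (γ : Fin (rank K) → (𝓞 K)ˣ)
    (hind : LinearIndependent (ZMod p) (fam p hζ hp2 γ)) :
    LinearIndependent (ZMod p) (fam p hζ hp2 (fundSystem K)) := by
  rw [linearIndependent_iff_card_eq_finrank_span]
  set S := Submodule.span (ZMod p) (Set.range (fam p hζ hp2 (fundSystem K))) with hS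
  have hfd : FiniteDimensional (ZMod p) S := FiniteDimensional.span_of_finite _ (Set.finite_range _)
  apply le_antisymm
  · have hle : Submodule.span (ZMod p) (Set.range (fam p hζ hp2 γ)) ≤ S := by
      rw [Submodule.span_le]
      rintro _ ⟨i, rfl⟩
      cases i with
      | none => exact lamA_mem_span p hζ hp2 _
      | some j => exact lamA_mem_span p hζ hp2 _
    have h1 := Submodule.finrank_mono hle
    rw [finrank_span_eq_card hind] at h1
    exact h1
  · exact finrank_range_le_card _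

/-- **Kummer's lemma**, assuming the independence of the logarithmic derivatives of `ζ` and of
`rank K` units. -/
theorem kummer_of_linearIndependent (hp2 : p ≠ 2) (γ : Fin (rank K) → (𝓞 K)ˣ)
    (hind : LinearIndependent (ZMod p) (fam p hζ hp2 γ))
    (u : (𝓞 K)ˣ) (h : ∃ n : ℤ, (p : 𝓞 K) ∣ (u : 𝓞 K) - n) : ∃ v : (𝓞 K)ˣ, u = v ^ p := by
  obtain ⟨n, hn⟩ := h
  have hu0 : lamA p hζ hp2 u = 0 := lamA_eq_zero_of_dvd p hζ hp2 u hn
  have hb := linearIndependent_fundSystem p hζ hp2 γ hind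
  rw [Fintype.linearIndependent_iff] at hb
  obtain ⟨⟨w, e⟩, hx, -⟩ := exist_unique_eq_mul_prod K u
  simp only at hx
  obtain ⟨a, hap, ha⟩ := torsion_sq p hζ hp2 (w : (𝓞 K)ˣ) w.2
  -- the relation `0 = 2 Λ(u) = a Λ(ζ) + ∑ 2 e_i Λ(ε_i)`
  have hrel : ∑ i, (fun i : Option (Fin (rank K)) ↦
      i.elim ((a : ℕ) : ZMod p) (fun j ↦ ((2 * e j : ℤ) : ZMod p))) i •
        fam p hζ hp2 (fundSystem K) i = 0 := by
    rw [Fintype.sum_option]
    simp only [Option.elim_none, Option.elim_some, fam]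
    have h2 : (2 : ℕ) • lamA p hζ hp2 u = 0 := by rw [hu0, smul_zero]
    rw [hx, lamA_mul, lamA_prod, smul_add, ← lamA_pow, ha, lamA_pow, Finset.smul_sum] at h2
    rw [Nat.cast_smul_eq_nsmul]
    convert h2 using 3 with i
    rw [lamA_zpow, Int.cast_smul_eq_zsmul, mul_smul]
    norm_cast
  have hcoef := hb _ hrel
  have ha0 : a = 0 := by
    have := hcoef none
    simp only [Option.elim_none] at this
    rw [ZMod.natCast_eq_zero_iff] at this
    exact Nat.eq_zero_of_dvd_of_lt this hap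
  have he : ∀ j, (p : ℤ) ∣ e j := by
    intro j
    have := hcoef (some j)
    simp only [Option.elim_some] at this
    rw [Int.cast_mul, Int.cast_ofNat, mul_eq_zero] at this
    rcases this with h2 | h2
    · exact absurd h2 (two_ne_zero_zmod p hp2)
    · exact (ZMod.intCast_zmod_eq_zero_iff_dvd _ _).mp h2
  choose f hf using he
  -- `w = ± 1`
  have hw2 : ((w : (𝓞 K)ˣ) : 𝓞 K) * ((w : (𝓞 K)ˣ) : 𝓞 K) = 1 := by
    rw [ha0, pow_zero] at ha
    rw [← sq, ← Units.val_pow_eq_pow_val, ha, Units.val_one]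
  have hodd : Odd p := hp.out.odd_of_ne_two hp2
  have hwp : (w : (𝓞 K)ˣ) ^ p = w := by
    rcases mul_self_eq_one_iff.mp hw2 with h1 | h1
    · have : (w : (𝓞 K)ˣ) = 1 := Units.ext h1
      rw [this, one_pow]
    · have : (w : (𝓞 K)ˣ) = -1 := Units.ext (by rw [h1]; simp)
      rw [this, hodd.neg_one_pow]
  refine ⟨(w : (𝓞 K)ˣ) * ∏ i, (fundSystem K i) ^ (f i), ?_⟩
  rw [mul_pow, hwp, ← Finset.prod_pow, hx]
  congr 1
  refine Finset.prod_congr rfl fun i _ ↦ ?_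
  rw [hf i, zpow_mul', zpow_natCast]

end Fermat.Agent.Lib.FltRegular.Kummer
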