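/-
Helper library (helper2): explicit tools for verifying the independence hypothesis of
`kummer_of_linearIndependent` for a given prime.
-/
import Fermat.Agent.Lib.FltRegular.Kummer.General

set_option autoImplicit false

open Polynomial NumberField NumberField.Units

namespace Fermat.Agent.Lib.FltRegular.Kummer

section Explicit

variable (p : ℕ) [hp : Fact p.Prime]

/-- The class of `X`. -/
noncomputable def xx : TR p := mkA p X

theorem xx_pow : (xx p) ^ (p - 1) = 0 := by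
  rw [xx, ← map_pow, mkA_X_pow]

theorem natCast_self_TR : (p : TR p) = 0 := CharP.cast_eq_zero (TR p) p

theorem euler_one_sub_xx : euler p (1 - xx p) = - xx p := by
  have : (1 : TR p) - xx p = mkA p (1 - X) := by rw [xx, map_sub, map_one]
  rw [this, euler_mkA]
  simp [xx]

theorem euler_geom (m : ℕ) :
    euler p (∑ i ∈ Finset.range m, (1 - xx p) ^ i) =
      ∑ i ∈ Finset.range m, (i : TR p) * (1 - xx p) ^ (i - 1) * (- xx p) := by
  rw [map_sum]
  refine Finset.sum_congr rfl fun i _ ↦ ?_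
  rw [Derivation.leibniz_pow, euler_one_sub_xx, nsmul_eq_mul, smul_eq_mul, mul_assoc]

theorem coeff_eq_zero_of_mkA_eq_zero (f : (ZMod p)[X]) (hf : mkA p f = 0) {k : ℕ}
    (hk : k < p - 1) : f.coeff k = 0 := by
  rw [mkA_eq_zero_iff, X_pow_dvd_iff] at hf
  exact hf k hk

variable {K : Type*} [Field K] [NumberField K] [IsCyclotomicExtension {p} ℚ K]
variable {ζ : K} (hζ : IsPrimitiveRoot ζ p)

theorem psi_zetaUnit (hp2 : p ≠ 2) :
    psi p hζ hp2 ((zetaUnit p hζ : (𝓞 K)ˣ) : 𝓞 K) = 1 - xx p := by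
  rw [coe_zetaUnit, psi_toInteger, xx, map_sub, map_one]

/-- The cyclotomic unit `1 + ζ + ... + ζ^(m-1)` for `m` prime to `p`. -/
noncomputable def cycUnit (m : ℕ) (hm : m.Coprime p) : (𝓞 K)ˣ :=
  (hζ.toInteger_isPrimitiveRoot.geom_sum_isUnit hp.out.two_le hm).unit

theorem psi_cycUnit (hp2 : p ≠ 2) (m : ℕ) (hm : m.Coprime p) :
    psi p hζ hp2 ((cycUnit p hζ m hm : (𝓞 K)ˣ) : 𝓞 K) =
      ∑ i ∈ Finset.range m, (1 - xx p) ^ i := by
  have : ((cycUnit p hζ m hm : (𝓞 K)ˣ) : 𝓞 K) = ∑ i ∈ Finset.range m, hζ.toInteger ^ i := rfl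
  rw [this, map_sum]
  refine Finset.sum_congr rfl fun i _ ↦ ?_
  rw [map_pow, psi_toInteger, xx, map_sub, map_one]

theorem lamA_cycUnit (hp2 : p ≠ 2) (m : ℕ) (hm : m.Coprime p) {w d : TR p}
    (hw : (∑ i ∈ Finset.range m, (1 - xx p) ^ i) * w = 1)
    (hd : (∑ i ∈ Finset.range m, (i : TR p) * (1 - xx p) ^ (i - 1) * (- xx p)) * w = d) :
    lamA p hζ hp2 (cycUnit p hζ m hm) = d := by
  rw [lamA_eq p hζ hp2 _ (w := w) (by rw [psi_cycUnit]; exact hw), psi_cycUnit, euler_geom, hd]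

theorem lamA_zetaUnit (hp2 : p ≠ 2) {w d : TR p} (hw : (1 - xx p) * w = 1)
    (hd : (- xx p) * w = d) : lamA p hζ hp2 (zetaUnit p hζ) = d := by
  rw [lamA_eq p hζ hp2 _ (w := w) (by rw [psi_zetaUnit]; exact hw), psi_zetaUnit,
    euler_one_sub_xx, hd]

theorem rank_eq (hp2 : p ≠ 2) : rank K = (p - 3) / 2 := by
  have h3 : 2 < p := lt_of_le_of_ne hp.out.two_le (Ne.symm hp2)
  rw [rank, InfinitePlace.card_eq_nrRealPlaces_add_nrComplexPlaces,
    IsCyclotomicExtension.Rat.nrRealPlaces_eq_zero (n := p) K h3,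
    IsCyclotomicExtension.Rat.nrComplexPlaces_eq_totient_div_two (n := p) K,
    Nat.totient_prime hp.out]
  omega


/-- Variant of `kummer_of_linearIndependent` with the rank given by an equation. -/
theorem kummer_of_linearIndependent' (hp2 : p ≠ 2) {r : ℕ} (hr : rank K = r)
    (γ : Fin r → (𝓞 K)ˣ) (hind : LinearIndependent (ZMod p) (fam p hζ hp2 γ))
    (u : (𝓞 K)ˣ) (h : ∃ n : ℤ, (p : 𝓞 K) ∣ (u : 𝓞 K) - n) : ∃ v : (𝓞 K)ˣ, u = v ^ p := by
  subst hr
  exact kummer_of_linearIndependent p hζ hp2 γ hind u h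

end Explicit

end Fermat.Agent.Lib.FltRegular.Kummer
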