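/-
Helper library (helper2): Kummer's lemma for `p = 11`. AUTO-GENERATED by tools/gen_kummer.py
(explicit inverses and logarithmic derivatives in `F_11[X]/(X^10)`, verified by `linear_combination`).
-/
import Mathlib
import Fermat.Agent.Lib.FltRegular.Kummer.Explicit

set_option autoImplicit false
set_option linter.unusedSimpArgs false
set_option linter.unusedSectionVars false

open Polynomial NumberField NumberField.Units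

namespace Fermat.Agent.Lib.FltRegular.Kummer

namespace P11

theorem prime_p : Nat.Prime 11 := by norm_num

instance fact_prime_p : Fact (Nat.Prime 11) := ⟨prime_p⟩

theorem p_ne_two : (11 : ℕ) ≠ 2 := by norm_num

theorem hx : (xx 11) ^ 10 = 0 := xx_pow 11

theorem hp0 : (11 : TR 11) = 0 := by
  have := natCast_self_TR 11
  exact_mod_cast this

variable {K : Type*} [Field K] [NumberField K] [IsCyclotomicExtension {11} ℚ K]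
variable {ζ : K} (hζ : IsPrimitiveRoot ζ 11)


theorem lamA_zeta :
    lamA 11 hζ p_ne_two (zetaUnit 11 hζ) = mkA 11 (10 * X + 10 * X ^ 2 + 10 * X ^ 3 + 10 * X ^ 4 + 10 * X ^ 5 + 10 * X ^ 6 + 10 * X ^ 7 + 10 * X ^ 8 + 10 * X ^ 9) := by
  have hD : mkA 11 (10 * X + 10 * X ^ 2 + 10 * X ^ 3 + 10 * X ^ 4 + 10 * X ^ 5 + 10 * X ^ 6 + 10 * X ^ 7 + 10 * X ^ 8 + 10 * X ^ 9) = (10 * xx 11 + 10 * xx 11 ^ 2 + 10 * xx 11 ^ 3 + 10 * xx 11 ^ 4 + 10 * xx 11 ^ 5 + 10 * xx 11 ^ 6 + 10 * xx 11 ^ 7 + 10 * xx 11 ^ 8 + 10 * xx 11 ^ 9) := by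
    simp only [xx, map_add, map_mul, map_pow, map_ofNat, map_one]
  rw [hD]
  apply lamA_zetaUnit 11 hζ p_ne_two (w := (1 + 1 * xx 11 + 1 * xx 11 ^ 2 + 1 * xx 11 ^ 3 + 1 * xx 11 ^ 4 + 1 * xx 11 ^ 5 + 1 * xx 11 ^ 6 + 1 * xx 11 ^ 7 + 1 * xx 11 ^ 8 + 1 * xx 11 ^ 9))
  · linear_combination ((-1)) * hx + 0 * hp0
  · linear_combination ((-1)) * hx + ((-1) * xx 11 + (-1) * xx 11 ^ 2 + (-1) * xx 11 ^ 3 + (-1) * xx 11 ^ 4 + (-1) * xx 11 ^ 5 + (-1) * xx 11 ^ 6 + (-1) * xx 11 ^ 7 + (-1) * xx 11 ^ 8 + (-1) * xx 11 ^ 9) * hp0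


theorem coprime_2 : Nat.Coprime 2 11 := by norm_num

theorem lamA_gamma1 :
    lamA 11 hζ p_ne_two (cycUnit 11 hζ 2 coprime_2) = mkA 11 (5 * X + 8 * X ^ 2 + 4 * X ^ 3 + 2 * X ^ 4 + 1 * X ^ 5 + 6 * X ^ 6 + 3 * X ^ 7 + 7 * X ^ 8 + 9 * X ^ 9) := by
  have hD : mkA 11 (5 * X + 8 * X ^ 2 + 4 * X ^ 3 + 2 * X ^ 4 + 1 * X ^ 5 + 6 * X ^ 6 + 3 * X ^ 7 + 7 * X ^ 8 + 9 * X ^ 9) = (5 * xx 11 + 8 * xx 11 ^ 2 + 4 * xx 11 ^ 3 + 2 * xx 11 ^ 4 + 1 * xx 11 ^ 5 + 6 * xx 11 ^ 6 + 3 * xx 11 ^ 7 + 7 * xx 11 ^ 8 + 9 * xx 11 ^ 9) := by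
    simp only [xx, map_add, map_mul, map_pow, map_ofNat, map_one]
  rw [hD]
  apply lamA_cycUnit 11 hζ p_ne_two 2 coprime_2 (w := (6 + 3 * xx 11 + 7 * xx 11 ^ 2 + 9 * xx 11 ^ 3 + 10 * xx 11 ^ 4 + 5 * xx 11 ^ 5 + 8 * xx 11 ^ 6 + 4 * xx 11 ^ 7 + 2 * xx 11 ^ 8 + 1 * xx 11 ^ 9))
  · simp only [Finset.sum_range_succ, Finset.sum_range_zero]
    linear_combination ((-1)) * hx + (1 + 1 * xx 11 ^ 2 + 1 * xx 11 ^ 3 + 1 * xx 11 ^ 4 + 1 * xx 11 ^ 6) * hp0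
  · simp only [Finset.sum_range_succ, Finset.sum_range_zero, Nat.reduceSub, Nat.cast_ofNat,
      Nat.cast_zero, Nat.cast_one]
    linear_combination ((-1)) * hx + ((-1) * xx 11 + (-1) * xx 11 ^ 2 + (-1) * xx 11 ^ 3 + (-1) * xx 11 ^ 4 + (-1) * xx 11 ^ 5 + (-1) * xx 11 ^ 6 + (-1) * xx 11 ^ 7 + (-1) * xx 11 ^ 8 + (-1) * xx 11 ^ 9) * hp0


theorem coprime_3 : Nat.Coprime 3 11 := by norm_num

theorem lamA_gamma2 :
    lamA 11 hζ p_ne_two (cycUnit 11 hζ 3 coprime_3) = mkA 11 (10 * X + 7 * X ^ 2 + 5 * X ^ 4 + 5 * X ^ 5 + 7 * X ^ 6 + 9 * X ^ 7 + 3 * X ^ 8) := by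
  have hD : mkA 11 (10 * X + 7 * X ^ 2 + 5 * X ^ 4 + 5 * X ^ 5 + 7 * X ^ 6 + 9 * X ^ 7 + 3 * X ^ 8) = (10 * xx 11 + 7 * xx 11 ^ 2 + 5 * xx 11 ^ 4 + 5 * xx 11 ^ 5 + 7 * xx 11 ^ 6 + 9 * xx 11 ^ 7 + 3 * xx 11 ^ 8) := by
    simp only [xx, map_add, map_mul, map_pow, map_ofNat, map_one]
  rw [hD]
  apply lamA_cycUnit 11 hζ p_ne_two 3 coprime_3 (w := (4 + 4 * xx 11 + 10 * xx 11 ^ 2 + 5 * xx 11 ^ 3 + 9 * xx 11 ^ 4 + 8 * xx 11 ^ 6 + 8 * xx 11 ^ 7 + 9 * xx 11 ^ 8 + 10 * xx 11 ^ 9))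
  · simp only [Finset.sum_range_succ, Finset.sum_range_zero]
    linear_combination ((-21) + 10 * xx 11) * hx + (1 + 2 * xx 11 ^ 2 + (-1) * xx 11 ^ 3 + 2 * xx 11 ^ 4 + (-2) * xx 11 ^ 5 + 3 * xx 11 ^ 6 + 1 * xx 11 ^ 8 + 1 * xx 11 ^ 9) * hp0
  · simp only [Finset.sum_range_succ, Finset.sum_range_zero, Nat.reduceSub, Nat.cast_ofNat,
      Nat.cast_zero, Nat.cast_one]
    linear_combination ((-12) + 20 * xx 11) * hx + ((-2) * xx 11 + (-1) * xx 11 ^ 2 + (-2) * xx 11 ^ 3 + (-2) * xx 11 ^ 5 + 1 * xx 11 ^ 6 + (-3) * xx 11 ^ 7 + (-1) * xx 11 ^ 8 + (-1) * xx 11 ^ 9) * hp0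


theorem coprime_4 : Nat.Coprime 4 11 := by norm_num

theorem lamA_gamma3 :
    lamA 11 hζ p_ne_two (cycUnit 11 hζ 4 coprime_4) = mkA 11 (4 * X + 8 * X ^ 2 + 10 * X ^ 3 + 8 * X ^ 4 + 4 * X ^ 5 + 6 * X ^ 6 + 7 * X ^ 7) := by
  have hD : mkA 11 (4 * X + 8 * X ^ 2 + 10 * X ^ 3 + 8 * X ^ 4 + 4 * X ^ 5 + 6 * X ^ 6 + 7 * X ^ 7) = (4 * xx 11 + 8 * xx 11 ^ 2 + 10 * xx 11 ^ 3 + 8 * xx 11 ^ 4 + 4 * xx 11 ^ 5 + 6 * xx 11 ^ 6 + 7 * xx 11 ^ 7) := by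
    simp only [xx, map_add, map_mul, map_pow, map_ofNat, map_one]
  rw [hD]
  apply lamA_cycUnit 11 hζ p_ne_two 4 coprime_4 (w := (3 + 10 * xx 11 + 1 * xx 11 ^ 2 + 6 * xx 11 ^ 3 + 5 * xx 11 ^ 4 + 10 * xx 11 ^ 5 + 6 * xx 11 ^ 6 + 3 * xx 11 ^ 7 + 1 * xx 11 ^ 8))
  · simp only [Finset.sum_range_succ, Finset.sum_range_zero]
    linear_combination (1 + (-1) * xx 11) * hx + (1 + 2 * xx 11 + (-4) * xx 11 ^ 2 + 5 * xx 11 ^ 3 + (-2) * xx 11 ^ 4 + 3 * xx 11 ^ 5 + (-2) * xx 11 ^ 6 + 1 * xx 11 ^ 7) * hp0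
  · simp only [Finset.sum_range_succ, Finset.sum_range_zero, Nat.reduceSub, Nat.cast_ofNat,
      Nat.cast_zero, Nat.cast_one]
    linear_combination ((-1) + (-3) * xx 11) * hx + ((-2) * xx 11 + (-4) * xx 11 ^ 2 + 5 * xx 11 ^ 3 + (-6) * xx 11 ^ 4 + 1 * xx 11 ^ 5 + (-4) * xx 11 ^ 6 + 2 * xx 11 ^ 7) * hp0


theorem coprime_5 : Nat.Coprime 5 11 := by norm_num

theorem lamA_gamma4 :
    lamA 11 hζ p_ne_two (cycUnit 11 hζ 5 coprime_5) = mkA 11 (9 * X + 1 * X ^ 3 + 3 * X ^ 4 + 6 * X ^ 6 + 6 * X ^ 7 + 6 * X ^ 8 + 6 * X ^ 9) := by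
  have hD : mkA 11 (9 * X + 1 * X ^ 3 + 3 * X ^ 4 + 6 * X ^ 6 + 6 * X ^ 7 + 6 * X ^ 8 + 6 * X ^ 9) = (9 * xx 11 + 1 * xx 11 ^ 3 + 3 * xx 11 ^ 4 + 6 * xx 11 ^ 6 + 6 * xx 11 ^ 7 + 6 * xx 11 ^ 8 + 6 * xx 11 ^ 9) := by
    simp only [xx, map_add, map_mul, map_pow, map_ofNat, map_one]
  rw [hD]
  apply lamA_cycUnit 11 hζ p_ne_two 5 coprime_5 (w := (9 + 7 * xx 11 + 7 * xx 11 ^ 2 + 9 * xx 11 ^ 3 + 7 * xx 11 ^ 4 + 6 * xx 11 ^ 5 + 10 * xx 11 ^ 6))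
  · simp only [Finset.sum_range_succ, Finset.sum_range_zero]
    linear_combination (10) * hx + (4 + (-5) * xx 11 + 5 * xx 11 ^ 2 + (-1) * xx 11 ^ 4 + 2 * xx 11 ^ 5 + 2 * xx 11 ^ 6 + (-6) * xx 11 ^ 7 + 7 * xx 11 ^ 8 + (-4) * xx 11 ^ 9) * hp0
  · simp only [Finset.sum_range_succ, Finset.sum_range_zero, Nat.reduceSub, Nat.cast_ofNat,
      Nat.cast_zero, Nat.cast_one]
    linear_combination (40) * hx + ((-9) * xx 11 + 10 * xx 11 ^ 2 + (-6) * xx 11 ^ 3 + (-2) * xx 11 ^ 4 + 3 * xx 11 ^ 5 + (-3) * xx 11 ^ 6 + (-5) * xx 11 ^ 7 + 12 * xx 11 ^ 8 + (-12) * xx 11 ^ 9) * hp0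


/-- The cyclotomic units used for `p = 11`. -/
noncomputable def gam : Fin 4 → (𝓞 K)ˣ := ![cycUnit 11 hζ 2 coprime_2, cycUnit 11 hζ 3 coprime_3, cycUnit 11 hζ 4 coprime_4, cycUnit 11 hζ 5 coprime_5]

theorem gam_0 : gam hζ 0 = cycUnit 11 hζ 2 coprime_2 := rfl

theorem gam_1 : gam hζ 1 = cycUnit 11 hζ 3 coprime_3 := rfl

theorem gam_2 : gam hζ 2 = cycUnit 11 hζ 4 coprime_4 := rfl

theorem gam_3 : gam hζ 3 = cycUnit 11 hζ 5 coprime_5 := rfl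


theorem linearIndependent_fam : LinearIndependent (ZMod 11) (fam 11 hζ p_ne_two (gam hζ)) := by
  rw [Fintype.linearIndependent_iff]
  intro g hg
  rw [Fintype.sum_option] at hg
  simp only [fam, Option.elim_none, Option.elim_some, Fin.sum_univ_four] at hg
  rw [gam_0, gam_1, gam_2, gam_3, lamA_zeta, lamA_gamma1, lamA_gamma2, lamA_gamma3, lamA_gamma4] at hg
  have hpoly : mkA 11 ((g none) • ((10 * X + 10 * X ^ 2 + 10 * X ^ 3 + 10 * X ^ 4 + 10 * X ^ 5 + 10 * X ^ 6 + 10 * X ^ 7 + 10 * X ^ 8 + 10 * X ^ 9) : (ZMod 11)[X]) + ((g (some 0)) • ((5 * X + 8 * X ^ 2 + 4 * X ^ 3 + 2 * X ^ 4 + 1 * X ^ 5 + 6 * X ^ 6 + 3 * X ^ 7 + 7 * X ^ 8 + 9 * X ^ 9) : (ZMod 11)[X]) + (g (some 1)) • ((10 * X + 7 * X ^ 2 + 5 * X ^ 4 + 5 * X ^ 5 + 7 * X ^ 6 + 9 * X ^ 7 + 3 * X ^ 8) : (ZMod 11)[X]) + (g (some 2)) • ((4 * X + 8 * X ^ 2 + 10 * X ^ 3 + 8 * X ^ 4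 + 4 * X ^ 5 + 6 * X ^ 6 + 7 * X ^ 7) : (ZMod 11)[X]) + (g (some 3)) • ((9 * X + 1 * X ^ 3 + 3 * X ^ 4 + 6 * X ^ 6 + 6 * X ^ 7 + 6 * X ^ 8 + 6 * X ^ 9) : (ZMod 11)[X]))) = 0 := by
    simp only [map_add, map_smul]
    exact hg
  have h13 : (11 : ZMod 11) = 0 := by decide
  have e0 := coeff_eq_zero_of_mkA_eq_zero 11 _ hpoly (k := 1) (by norm_num)
  simp only [coeff_add, coeff_smul, coeff_ofNat_mul, coeff_X_pow, coeff_X, coeff_ofNat_zero, smul_eq_mul] at e0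
  norm_num at e0
  have e1 := coeff_eq_zero_of_mkA_eq_zero 11 _ hpoly (k := 2) (by norm_num)
  simp only [coeff_add, coeff_smul, coeff_ofNat_mul, coeff_X_pow, coeff_X, coeff_ofNat_zero, smul_eq_mul] at e1
  norm_num at e1
  have e2 := coeff_eq_zero_of_mkA_eq_zero 11 _ hpoly (k := 4) (by norm_num)
  simp only [coeff_add, coeff_smul, coeff_ofNat_mul, coeff_X_pow, coeff_X, coeff_ofNat_zero, smul_eq_mul] at e2
  norm_num at e2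
  have e3 := coeff_eq_zero_of_mkA_eq_zero 11 _ hpoly (k := 6) (by norm_num)
  simp only [coeff_add, coeff_smul, coeff_ofNat_mul, coeff_X_pow, coeff_X, coeff_ofNat_zero, smul_eq_mul] at e3
  norm_num at e3
  have e4 := coeff_eq_zero_of_mkA_eq_zero 11 _ hpoly (k := 8) (by norm_num)
  simp only [coeff_add, coeff_smul, coeff_ofNat_mul, coeff_X_pow, coeff_X, coeff_ofNat_zero, smul_eq_mul] at e4
  norm_num at e4
  have hall : g none = 0 ∧ g (some 0) = 0 ∧ g (some 1) = 0 ∧ g (some 2) = 0 ∧ g (some 3) = 0 := by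
    refine ⟨?_, ?_, ?_, ?_, ?_⟩
    · linear_combination (2) * e0 + (1) * e1 + (9) * e2 + (0) * e3 + (9) * e4 + (-((19) * g none + (9) * g (some 0) + (9) * g (some 1) + (8) * g (some 2) + (9) * g (some 3))) * h13
    · linear_combination (5) * e0 + (8) * e1 + (0) * e2 + (8) * e3 + (1) * e4 + (-((20) * g none + (13) * g (some 0) + (15) * g (some 1) + (12) * g (some 2) + (9) * g (some 3))) * h13
    · linear_combination (4) * e0 + (7) * e1 + (1) * e2 + (5) * e3 + (5) * e4 + (-((20) * g none + (13) * g (some 0) + (13) * g (some 1) + (10) * g (some 2) + (9) * g (some 3))) * h13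
    · linear_combination (0) * e0 + (4) * e1 + (3) * e2 + (0) * e3 + (4) * e4 + (-((10) * g none + (6) * g (some 0) + (5) * g (some 1) + (5) * g (some 2) + (3) * g (some 3))) * h13
    · linear_combination (9) * e0 + (2) * e1 + (1) * e2 + (1) * e3 + (9) * e4 + (-((20) * g none + (12) * g (some 0) + (13) * g (some 1) + (6) * g (some 2) + (13) * g (some 3))) * h13
  intro i
  obtain ⟨h0, h1, h2, h3, h4⟩ := hall
  cases i with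
  | none => exact h0
  | some j =>
    fin_cases j
    · exact h1
    · exact h2
    · exact h3
    · exact h4

end P11

/-- **Kummer's lemma** for `p = 11`. -/
theorem kummer_lemma_eleven (K : Type*) [Field K] [NumberField K] [IsCyclotomicExtension {11} ℚ K]
    (u : (𝓞 K)ˣ) (h : ∃ n : ℤ, ((11 : ℕ) : 𝓞 K) ∣ (u : 𝓞 K) - n) : ∃ v : (𝓞 K)ˣ, u = v ^ 11 := by
  have hζ := IsCyclotomicExtension.zeta_spec 11 ℚ K
  have hr : rank K = 4 := by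
    rw [rank_eq 11 P11.p_ne_two]
  exact kummer_of_linearIndependent' 11 hζ P11.p_ne_two hr (P11.gam hζ)
    (P11.linearIndependent_fam hζ) u h

end Fermat.Agent.Lib.FltRegular.Kummer
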