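/-
Helper library (helper2): Kummer's lemma for `p = 13`. AUTO-GENERATED by tools/gen_kummer.py
(explicit inverses and logarithmic derivatives in `F_13[X]/(X^12)`, verified by `linear_combination`).
-/
import Mathlib
import Fermat.Agent.Lib.FltRegular.Kummer.Explicit

set_option autoImplicit false
set_option linter.unusedSimpArgs false
set_option linter.unusedSectionVars false

open Polynomial NumberField NumberField.Units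

namespace Fermat.Agent.Lib.FltRegular.Kummer

namespace P13

theorem prime_p : Nat.Prime 13 := by norm_num

instance fact_prime_p : Fact (Nat.Prime 13) := ⟨prime_p⟩

theorem p_ne_two : (13 : ℕ) ≠ 2 := by norm_num

theorem hx : (xx 13) ^ 12 = 0 := xx_pow 13

theorem hp0 : (13 : TR 13) = 0 := by
  have := natCast_self_TR 13
  exact_mod_cast this

variable {K : Type*} [Field K] [NumberField K] [IsCyclotomicExtension {13} ℚ K]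
variable {ζ : K} (hζ : IsPrimitiveRoot ζ 13)


theorem lamA_zeta :
    lamA 13 hζ p_ne_two (zetaUnit 13 hζ) = mkA 13 (12 * X + 12 * X ^ 2 + 12 * X ^ 3 + 12 * X ^ 4 + 12 * X ^ 5 + 12 * X ^ 6 + 12 * X ^ 7 + 12 * X ^ 8 + 12 * X ^ 9 + 12 * X ^ 10 + 12 * X ^ 11) := by
  have hD : mkA 13 (12 * X + 12 * X ^ 2 + 12 * X ^ 3 + 12 * X ^ 4 + 12 * X ^ 5 + 12 * X ^ 6 + 12 * X ^ 7 + 12 * X ^ 8 + 12 * X ^ 9 + 12 * X ^ 10 + 12 * X ^ 11) = (12 * xx 13 + 12 * xx 13 ^ 2 + 12 * xx 13 ^ 3 + 12 * xx 13 ^ 4 + 12 * xx 13 ^ 5 + 12 * xx 13 ^ 6 + 12 * xx 13 ^ 7 + 12 * xx 13 ^ 8 + 12 * xx 13 ^ 9 + 12 * xx 13 ^ 10 + 12 * xx 13 ^ 11) := by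
    simp only [xx, map_add, map_mul, map_pow, map_ofNat, map_one]
  rw [hD]
  apply lamA_zetaUnit 13 hζ p_ne_two (w := (1 + 1 * xx 13 + 1 * xx 13 ^ 2 + 1 * xx 13 ^ 3 + 1 * xx 13 ^ 4 + 1 * xx 13 ^ 5 + 1 * xx 13 ^ 6 + 1 * xx 13 ^ 7 + 1 * xx 13 ^ 8 + 1 * xx 13 ^ 9 + 1 * xx 13 ^ 10 + 1 * xx 13 ^ 11))
  · linear_combination ((-1)) * hx + 0 * hp0
  · linear_combination ((-1)) * hx + ((-1) * xx 13 + (-1) * xx 13 ^ 2 + (-1) * xx 13 ^ 3 + (-1) * xx 13 ^ 4 + (-1) * xx 13 ^ 5 + (-1) * xx 13 ^ 6 + (-1) * xx 13 ^ 7 + (-1) * xx 13 ^ 8 + (-1) * xx 13 ^ 9 + (-1) * xx 13 ^ 10 + (-1) * xx 13 ^ 11) * hp0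


theorem coprime_2 : Nat.Coprime 2 13 := by norm_num

theorem lamA_gamma1 :
    lamA 13 hζ p_ne_two (cycUnit 13 hζ 2 coprime_2) = mkA 13 (6 * X + 3 * X ^ 2 + 8 * X ^ 3 + 4 * X ^ 4 + 2 * X ^ 5 + 1 * X ^ 6 + 7 * X ^ 7 + 10 * X ^ 8 + 5 * X ^ 9 + 9 * X ^ 10 + 11 * X ^ 11) := by
  have hD : mkA 13 (6 * X + 3 * X ^ 2 + 8 * X ^ 3 + 4 * X ^ 4 + 2 * X ^ 5 + 1 * X ^ 6 + 7 * X ^ 7 + 10 * X ^ 8 + 5 * X ^ 9 + 9 * X ^ 10 + 11 * X ^ 11) = (6 * xx 13 + 3 * xx 13 ^ 2 + 8 * xx 13 ^ 3 + 4 * xx 13 ^ 4 + 2 * xx 13 ^ 5 + 1 * xx 13 ^ 6 + 7 * xx 13 ^ 7 + 10 * xx 13 ^ 8 + 5 * xx 13 ^ 9 + 9 * xx 13 ^ 10 + 11 * xx 13 ^ 11) := by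
    simp only [xx, map_add, map_mul, map_pow, map_ofNat, map_one]
  rw [hD]
  apply lamA_cycUnit 13 hζ p_ne_two 2 coprime_2 (w := (7 + 10 * xx 13 + 5 * xx 13 ^ 2 + 9 * xx 13 ^ 3 + 11 * xx 13 ^ 4 + 12 * xx 13 ^ 5 + 6 * xx 13 ^ 6 + 3 * xx 13 ^ 7 + 8 * xx 13 ^ 8 + 4 * xx 13 ^ 9 + 2 * xx 13 ^ 10 + 1 * xx 13 ^ 11))
  · simp only [Finset.sum_range_succ, Finset.sum_range_zero]
    linear_combination ((-1)) * hx + (1 + 1 * xx 13 + 1 * xx 13 ^ 3 + 1 * xx 13 ^ 4 + 1 * xx 13 ^ 5 + 1 * xx 13 ^ 8) * hp0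
  · simp only [Finset.sum_range_succ, Finset.sum_range_zero, Nat.reduceSub, Nat.cast_ofNat,
      Nat.cast_zero, Nat.cast_one]
    linear_combination ((-1)) * hx + ((-1) * xx 13 + (-1) * xx 13 ^ 2 + (-1) * xx 13 ^ 3 + (-1) * xx 13 ^ 4 + (-1) * xx 13 ^ 5 + (-1) * xx 13 ^ 6 + (-1) * xx 13 ^ 7 + (-1) * xx 13 ^ 8 + (-1) * xx 13 ^ 9 + (-1) * xx 13 ^ 10 + (-1) * xx 13 ^ 11) * hp0


theorem coprime_3 : Nat.Coprime 3 13 := by norm_num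

theorem lamA_gamma2 :
    lamA 13 hζ p_ne_two (cycUnit 13 hζ 3 coprime_3) = mkA 13 (12 * X + 4 * X ^ 2 + 3 * X ^ 4 + 3 * X ^ 5 + 2 * X ^ 6 + 1 * X ^ 7 + 9 * X ^ 8 + 10 * X ^ 10 + 10 * X ^ 11) := by
  have hD : mkA 13 (12 * X + 4 * X ^ 2 + 3 * X ^ 4 + 3 * X ^ 5 + 2 * X ^ 6 + 1 * X ^ 7 + 9 * X ^ 8 + 10 * X ^ 10 + 10 * X ^ 11) = (12 * xx 13 + 4 * xx 13 ^ 2 + 3 * xx 13 ^ 4 + 3 * xx 13 ^ 5 + 2 * xx 13 ^ 6 + 1 * xx 13 ^ 7 + 9 * xx 13 ^ 8 + 10 * xx 13 ^ 10 + 10 * xx 13 ^ 11) := by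
    simp only [xx, map_add, map_mul, map_pow, map_ofNat, map_one]
  rw [hD]
  apply lamA_cycUnit 13 hζ p_ne_two 3 coprime_3 (w := (9 + 9 * xx 13 + 6 * xx 13 ^ 2 + 3 * xx 13 ^ 3 + 1 * xx 13 ^ 4 + 4 * xx 13 ^ 6 + 4 * xx 13 ^ 7 + 7 * xx 13 ^ 8 + 10 * xx 13 ^ 9 + 12 * xx 13 ^ 10))
  · simp only [Finset.sum_range_succ, Finset.sum_range_zero]
    linear_combination (12) * hx + (2 + 1 * xx 13 ^ 6 + 1 * xx 13 ^ 8 + 1 * xx 13 ^ 9 + 1 * xx 13 ^ 10 + (-2) * xx 13 ^ 11) * hp0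
  · simp only [Finset.sum_range_succ, Finset.sum_range_zero, Nat.reduceSub, Nat.cast_ofNat,
      Nat.cast_zero, Nat.cast_one]
    linear_combination (24) * hx + ((-3) * xx 13 + (-1) * xx 13 ^ 2 + (-1) * xx 13 ^ 7 + (-1) * xx 13 ^ 8 + (-1) * xx 13 ^ 9 + (-2) * xx 13 ^ 10 + (-2) * xx 13 ^ 11) * hp0


theorem coprime_4 : Nat.Coprime 4 13 := by norm_num

theorem lamA_gamma3 :
    lamA 13 hζ p_ne_two (cycUnit 13 hζ 4 coprime_4) = mkA 13 (5 * X + 3 * X ^ 2 + 2 * X ^ 3 + 11 * X ^ 4 + 12 * X ^ 5 + 1 * X ^ 6 + 2 * X ^ 7 + 5 * X ^ 8 + 9 * X ^ 9 + 9 * X ^ 10 + 9 * X ^ 11) := by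
  have hD : mkA 13 (5 * X + 3 * X ^ 2 + 2 * X ^ 3 + 11 * X ^ 4 + 12 * X ^ 5 + 1 * X ^ 6 + 2 * X ^ 7 + 5 * X ^ 8 + 9 * X ^ 9 + 9 * X ^ 10 + 9 * X ^ 11) = (5 * xx 13 + 3 * xx 13 ^ 2 + 2 * xx 13 ^ 3 + 11 * xx 13 ^ 4 + 12 * xx 13 ^ 5 + 1 * xx 13 ^ 6 + 2 * xx 13 ^ 7 + 5 * xx 13 ^ 8 + 9 * xx 13 ^ 9 + 9 * xx 13 ^ 10 + 9 * xx 13 ^ 11) := by
    simp only [xx, map_add, map_mul, map_pow, map_ofNat, map_one]
  rw [hD]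
  apply lamA_cycUnit 13 hζ p_ne_two 4 coprime_4 (w := (10 + 2 * xx 13 + 6 * xx 13 ^ 2 + 3 * xx 13 ^ 3 + 12 * xx 13 ^ 4 + 10 * xx 13 ^ 5 + 7 * xx 13 ^ 6 + 10 * xx 13 ^ 7 + 4 * xx 13 ^ 8 + 1 * xx 13 ^ 9))
  · simp only [Finset.sum_range_succ, Finset.sum_range_zero]
    linear_combination ((-1)) * hx + (3 + (-4) * xx 13 + 4 * xx 13 ^ 2 + (-2) * xx 13 ^ 3 + 4 * xx 13 ^ 4 + (-2) * xx 13 ^ 5 + 1 * xx 13 ^ 6 + 2 * xx 13 ^ 7 + (-2) * xx 13 ^ 8 + 1 * xx 13 ^ 9) * hp0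
  · simp only [Finset.sum_range_succ, Finset.sum_range_zero, Nat.reduceSub, Nat.cast_ofNat,
      Nat.cast_zero, Nat.cast_one]
    linear_combination ((-3)) * hx + ((-5) * xx 13 + 5 * xx 13 ^ 2 + (-4) * xx 13 ^ 3 + 1 * xx 13 ^ 4 + (-6) * xx 13 ^ 5 + 2 * xx 13 ^ 6 + (-3) * xx 13 ^ 8 + 2 * xx 13 ^ 9 + (-1) * xx 13 ^ 10 + (-1) * xx 13 ^ 11) * hp0


theorem coprime_5 : Nat.Coprime 5 13 := by norm_num

theorem lamA_gamma4 :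
    lamA 13 hζ p_ne_two (cycUnit 13 hζ 5 coprime_5) = mkA 13 (11 * X + 1 * X ^ 3 + 6 * X ^ 4 + 2 * X ^ 6 + 2 * X ^ 7 + 4 * X ^ 8 + 6 * X ^ 9 + 3 * X ^ 10 + 8 * X ^ 11) := by
  have hD : mkA 13 (11 * X + 1 * X ^ 3 + 6 * X ^ 4 + 2 * X ^ 6 + 2 * X ^ 7 + 4 * X ^ 8 + 6 * X ^ 9 + 3 * X ^ 10 + 8 * X ^ 11) = (11 * xx 13 + 1 * xx 13 ^ 3 + 6 * xx 13 ^ 4 + 2 * xx 13 ^ 6 + 2 * xx 13 ^ 7 + 4 * xx 13 ^ 8 + 6 * xx 13 ^ 9 + 3 * xx 13 ^ 10 + 8 * xx 13 ^ 11) := by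
    simp only [xx, map_add, map_mul, map_pow, map_ofNat, map_one]
  rw [hD]
  apply lamA_cycUnit 13 hζ p_ne_two 5 coprime_5 (w := (8 + 3 * xx 13 + 3 * xx 13 ^ 2 + 8 * xx 13 ^ 3 + 1 * xx 13 ^ 4 + 4 * xx 13 ^ 5 + 3 * xx 13 ^ 6 + 3 * xx 13 ^ 8 + 3 * xx 13 ^ 9 + 2 * xx 13 ^ 10 + 1 * xx 13 ^ 11))
  · simp only [Finset.sum_range_succ, Finset.sum_range_zero]
    linear_combination ((-2) + 3 * xx 13 + (-3) * xx 13 ^ 2 + 1 * xx 13 ^ 3) * hx + (3 + (-5) * xx 13 + 5 * xx 13 ^ 2 + (-4) * xx 13 ^ 4 + 6 * xx 13 ^ 5 + (-4) * xx 13 ^ 6 + 1 * xx 13 ^ 7 + 2 * xx 13 ^ 8 + (-2) * xx 13 ^ 9 + 1 * xx 13 ^ 10) * hp0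
  · simp only [Finset.sum_range_succ, Finset.sum_range_zero, Nat.reduceSub, Nat.cast_ofNat,
      Nat.cast_zero, Nat.cast_one]
    linear_combination ((-3) + 2 * xx 13 + (-7) * xx 13 ^ 2 + 4 * xx 13 ^ 3) * hx + ((-7) * xx 13 + 10 * xx 13 ^ 2 + (-7) * xx 13 ^ 3 + (-3) * xx 13 ^ 4 + 9 * xx 13 ^ 5 + (-10) * xx 13 ^ 6 + 5 * xx 13 ^ 7 + (-5) * xx 13 ^ 9 + 3 * xx 13 ^ 10 + (-1) * xx 13 ^ 11) * hp0


theorem coprime_6 : Nat.Coprime 6 13 := by norm_num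

theorem lamA_gamma5 :
    lamA 13 hζ p_ne_two (cycUnit 13 hζ 6 coprime_6) = mkA 13 (4 * X + 8 * X ^ 2 + 10 * X ^ 3 + 8 * X ^ 4 + 4 * X ^ 5 + 1 * X ^ 6 + 7 * X ^ 7 + 7 * X ^ 8 + 7 * X ^ 9 + 7 * X ^ 10 + 7 * X ^ 11) := by
  have hD : mkA 13 (4 * X + 8 * X ^ 2 + 10 * X ^ 3 + 8 * X ^ 4 + 4 * X ^ 5 + 1 * X ^ 6 + 7 * X ^ 7 + 7 * X ^ 8 + 7 * X ^ 9 + 7 * X ^ 10 + 7 * X ^ 11) = (4 * xx 13 + 8 * xx 13 ^ 2 + 10 * xx 13 ^ 3 + 8 * xx 13 ^ 4 + 4 * xx 13 ^ 5 + 1 * xx 13 ^ 6 + 7 * xx 13 ^ 7 + 7 * xx 13 ^ 8 + 7 * xx 13 ^ 9 + 7 * xx 13 ^ 10 + 7 * xx 13 ^ 11) := by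
    simp only [xx, map_add, map_mul, map_pow, map_ofNat, map_one]
  rw [hD]
  apply lamA_cycUnit 13 hζ p_ne_two 6 coprime_6 (w := (11 + 8 * xx 13 + 5 * xx 13 ^ 2 + 9 * xx 13 ^ 3 + 4 * xx 13 ^ 4 + 8 * xx 13 ^ 5 + 6 * xx 13 ^ 6 + 1 * xx 13 ^ 7))
  · simp only [Finset.sum_range_succ, Finset.sum_range_zero]
    linear_combination ((-1)) * hx + (5 + (-9) * xx 13 + 10 * xx 13 ^ 2 + (-2) * xx 13 ^ 3 + (-5) * xx 13 ^ 4 + 10 * xx 13 ^ 5 + (-9) * xx 13 ^ 6 + 5 * xx 13 ^ 7 + (-2) * xx 13 ^ 9 + 1 * xx 13 ^ 10) * hp0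
  · simp only [Finset.sum_range_succ, Finset.sum_range_zero, Nat.reduceSub, Nat.cast_ofNat,
      Nat.cast_zero, Nat.cast_one]
    linear_combination ((-5)) * hx + ((-13) * xx 13 + 24 * xx 13 ^ 2 + (-20) * xx 13 ^ 3 + (-3) * xx 13 ^ 4 + 16 * xx 13 ^ 5 + (-22) * xx 13 ^ 6 + 18 * xx 13 ^ 7 + (-7) * xx 13 ^ 8 + (-5) * xx 13 ^ 9 + 4 * xx 13 ^ 10 + (-1) * xx 13 ^ 11) * hp0


/-- The cyclotomic units used for `p = 13`. -/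
noncomputable def gam : Fin 5 → (𝓞 K)ˣ := ![cycUnit 13 hζ 2 coprime_2, cycUnit 13 hζ 3 coprime_3, cycUnit 13 hζ 4 coprime_4, cycUnit 13 hζ 5 coprime_5, cycUnit 13 hζ 6 coprime_6]

theorem gam_0 : gam hζ 0 = cycUnit 13 hζ 2 coprime_2 := rfl

theorem gam_1 : gam hζ 1 = cycUnit 13 hζ 3 coprime_3 := rfl

theorem gam_2 : gam hζ 2 = cycUnit 13 hζ 4 coprime_4 := rfl

theorem gam_3 : gam hζ 3 = cycUnit 13 hζ 5 coprime_5 := rfl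

theorem gam_4 : gam hζ 4 = cycUnit 13 hζ 6 coprime_6 := rfl


theorem linearIndependent_fam : LinearIndependent (ZMod 13) (fam 13 hζ p_ne_two (gam hζ)) := by
  rw [Fintype.linearIndependent_iff]
  intro g hg
  rw [Fintype.sum_option] at hg
  simp only [fam, Option.elim_none, Option.elim_some, Fin.sum_univ_five] at hg
  rw [gam_0, gam_1, gam_2, gam_3, gam_4, lamA_zeta, lamA_gamma1, lamA_gamma2, lamA_gamma3, lamA_gamma4, lamA_gamma5] at hg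
  have hpoly : mkA 13 ((g none) • ((12 * X + 12 * X ^ 2 + 12 * X ^ 3 + 12 * X ^ 4 + 12 * X ^ 5 + 12 * X ^ 6 + 12 * X ^ 7 + 12 * X ^ 8 + 12 * X ^ 9 + 12 * X ^ 10 + 12 * X ^ 11) : (ZMod 13)[X]) + ((g (some 0)) • ((6 * X + 3 * X ^ 2 + 8 * X ^ 3 + 4 * X ^ 4 + 2 * X ^ 5 + 1 * X ^ 6 + 7 * X ^ 7 + 10 * X ^ 8 + 5 * X ^ 9 + 9 * X ^ 10 + 11 * X ^ 11) : (ZMod 13)[X]) + (g (some 1)) • ((12 * X + 4 * X ^ 2 + 3 * X ^ 4 + 3 * X ^ 5 + 2 * X ^ 6 + 1 * X ^ 7 + 9 * X ^ 8 + 10 * X ^ 10 + 10 * X ^ 11) : (ZMod 13)[X]) + (g (some 2)) • ((5 * X + 3 * X ^ 2 + 2 * X ^ 3 + 11 * X ^ 4 + 12 * X ^ 5 + 1 * X ^ 6 + 2 * X ^ 7 + 5 * X ^ 8 + 9 * X ^ 9 + 9 * X ^ 10 + 9 * X ^ 11) : (ZMod 13)[X]) + (g (some 3)) • ((11 * X + 1 * X ^ 3 + 6 * X ^ 4 + 2 * X ^ 6 + 2 * X ^ 7 + 4 * X ^ 8 + 6 * X ^ 9 + 3 * X ^ 10 + 8 * X ^ 11) : (ZMod 13)[X]) + (g (some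 4)) • ((4 * X + 8 * X ^ 2 + 10 * X ^ 3 + 8 * X ^ 4 + 4 * X ^ 5 + 1 * X ^ 6 + 7 * X ^ 7 + 7 * X ^ 8 + 7 * X ^ 9 + 7 * X ^ 10 + 7 * X ^ 11) : (ZMod 13)[X]))) = 0 := by
    simp only [map_add, map_smul]
    exact hg
  have h13 : (13 : ZMod 13) = 0 := by decide
  have e0 := coeff_eq_zero_of_mkA_eq_zero 13 _ hpoly (k := 1) (by norm_num)
  simp only [coeff_add, coeff_smul, coeff_ofNat_mul, coeff_X_pow, coeff_X, coeff_ofNat_zero, smul_eq_mul] at e0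
  norm_num at e0
  have e1 := coeff_eq_zero_of_mkA_eq_zero 13 _ hpoly (k := 2) (by norm_num)
  simp only [coeff_add, coeff_smul, coeff_ofNat_mul, coeff_X_pow, coeff_X, coeff_ofNat_zero, smul_eq_mul] at e1
  norm_num at e1
  have e2 := coeff_eq_zero_of_mkA_eq_zero 13 _ hpoly (k := 4) (by norm_num)
  simp only [coeff_add, coeff_smul, coeff_ofNat_mul, coeff_X_pow, coeff_X, coeff_ofNat_zero, smul_eq_mul] at e2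
  norm_num at e2
  have e3 := coeff_eq_zero_of_mkA_eq_zero 13 _ hpoly (k := 6) (by norm_num)
  simp only [coeff_add, coeff_smul, coeff_ofNat_mul, coeff_X_pow, coeff_X, coeff_ofNat_zero, smul_eq_mul] at e3
  norm_num at e3
  have e4 := coeff_eq_zero_of_mkA_eq_zero 13 _ hpoly (k := 8) (by norm_num)
  simp only [coeff_add, coeff_smul, coeff_ofNat_mul, coeff_X_pow, coeff_X, coeff_ofNat_zero, smul_eq_mul] at e4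
  norm_num at e4
  have e5 := coeff_eq_zero_of_mkA_eq_zero 13 _ hpoly (k := 10) (by norm_num)
  simp only [coeff_add, coeff_smul, coeff_ofNat_mul, coeff_X_pow, coeff_X, coeff_ofNat_zero, smul_eq_mul] at e5
  norm_num at e5
  have hall : g none = 0 ∧ g (some 0) = 0 ∧ g (some 1) = 0 ∧ g (some 2) = 0 ∧ g (some 3) = 0 ∧ g (some 4) = 0 := by
    refine ⟨?_, ?_, ?_, ?_, ?_, ?_⟩
    · linear_combination (12) * e0 + (3) * e1 + (3) * e2 + (9) * e3 + (7) * e4 + (4) * e5 + (-((35) * g none + (16) * g (some 0) + (22) * g (some 1) + (14) * g (some 2) + (16) * g (some 3) + (14) * g (some 4))) * h13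
    · linear_combination (3) * e0 + (2) * e1 + (10) * e2 + (7) * e3 + (11) * e4 + (6) * e5 + (-((36) * g none + (18) * g (some 0) + (19) * g (some 1) + (19) * g (some 2) + (13) * g (some 3) + (18) * g (some 4))) * h13
    · linear_combination (1) * e0 + (12) * e1 + (2) * e2 + (4) * e3 + (0) * e4 + (7) * e5 + (-((24) * g none + (9) * g (some 0) + (11) * g (some 1) + (10) * g (some 2) + (4) * g (some 3) + (13) * g (some 4))) * h13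
    · linear_combination (6) * e0 + (11) * e1 + (9) * e2 + (9) * e3 + (6) * e4 + (11) * e5 + (-((48) * g none + (21) * g (some 0) + (25) * g (some 1) + (23) * g (some 2) + (15) * g (some 3) + (24) * g (some 4))) * h13
    · linear_combination (9) * e0 + (2) * e1 + (2) * e2 + (7) * e3 + (1) * e4 + (5) * e5 + (-((24) * g none + (10) * g (some 0) + (15) * g (some 1) + (10) * g (some 2) + (11) * g (some 3) + (9) * g (some 4))) * h13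
    · linear_combination (9) * e0 + (1) * e1 + (2) * e2 + (11) * e3 + (1) * e4 + (2) * e5 + (-((24) * g none + (8) * g (some 0) + (13) * g (some 1) + (8) * g (some 2) + (11) * g (some 3) + (7) * g (some 4))) * h13
  intro i
  obtain ⟨h0, h1, h2, h3, h4, h5⟩ := hall
  cases i with
  | none => exact h0
  | some j =>
    fin_cases j
    · exact h1
    · exact h2
    · exact h3
    · exact h4
    · exact h5

end P13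

/-- **Kummer's lemma** for `p = 13`. -/
theorem kummer_lemma_thirteen (K : Type*) [Field K] [NumberField K] [IsCyclotomicExtension {13} ℚ K]
    (u : (𝓞 K)ˣ) (h : ∃ n : ℤ, ((13 : ℕ) : 𝓞 K) ∣ (u : 𝓞 K) - n) : ∃ v : (𝓞 K)ˣ, u = v ^ 13 := by
  have hζ := IsCyclotomicExtension.zeta_spec 13 ℚ K
  have hr : rank K = 5 := by
    rw [rank_eq 13 P13.p_ne_two]
  exact kummer_of_linearIndependent' 13 hζ P13.p_ne_two hr (P13.gam hζ)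
    (P13.linearIndependent_fam hζ) u h

end Fermat.Agent.Lib.FltRegular.Kummer
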