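/-
Helper library (helper2): Kummer's lemma for `p = 5`. AUTO-GENERATED by tools/gen_kummer.py
(explicit inverses and logarithmic derivatives in `F_5[X]/(X^4)`, verified by `linear_combination`).
-/
import Mathlib
import Fermat.Agent.Lib.FltRegular.Kummer.Explicit

set_option autoImplicit false
set_option linter.unusedSimpArgs false
set_option linter.unusedSectionVars false

open Polynomial NumberField NumberField.Units

namespace Fermat.Agent.Lib.FltRegular.Kummer

namespace P5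

theorem prime_p : Nat.Prime 5 := by norm_num

instance fact_prime_p : Fact (Nat.Prime 5) := ⟨prime_p⟩

theorem p_ne_two : (5 : ℕ) ≠ 2 := by norm_num

theorem hx : (xx 5) ^ 4 = 0 := xx_pow 5

theorem hp0 : (5 : TR 5) = 0 := by
  have := natCast_self_TR 5
  exact_mod_cast this

variable {K : Type*} [Field K] [NumberField K] [IsCyclotomicExtension {5} ℚ K]
variable {ζ : K} (hζ : IsPrimitiveRoot ζ 5)


theorem lamA_zeta :
    lamA 5 hζ p_ne_two (zetaUnit 5 hζ) = mkA 5 (4 * X + 4 * X ^ 2 + 4 * X ^ 3) := by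
  have hD : mkA 5 (4 * X + 4 * X ^ 2 + 4 * X ^ 3) = (4 * xx 5 + 4 * xx 5 ^ 2 + 4 * xx 5 ^ 3) := by
    simp only [xx, map_add, map_mul, map_pow, map_ofNat, map_one]
  rw [hD]
  apply lamA_zetaUnit 5 hζ p_ne_two (w := (1 + 1 * xx 5 + 1 * xx 5 ^ 2 + 1 * xx 5 ^ 3))
  · linear_combination ((-1)) * hx + 0 * hp0
  · linear_combination ((-1)) * hx + ((-1) * xx 5 + (-1) * xx 5 ^ 2 + (-1) * xx 5 ^ 3) * hp0


theorem coprime_2 : Nat.Coprime 2 5 := by norm_num

theorem lamA_gamma1 :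
    lamA 5 hζ p_ne_two (cycUnit 5 hζ 2 coprime_2) = mkA 5 (2 * X + 1 * X ^ 2 + 3 * X ^ 3) := by
  have hD : mkA 5 (2 * X + 1 * X ^ 2 + 3 * X ^ 3) = (2 * xx 5 + 1 * xx 5 ^ 2 + 3 * xx 5 ^ 3) := by
    simp only [xx, map_add, map_mul, map_pow, map_ofNat, map_one]
  rw [hD]
  apply lamA_cycUnit 5 hζ p_ne_two 2 coprime_2 (w := (3 + 4 * xx 5 + 2 * xx 5 ^ 2 + 1 * xx 5 ^ 3))
  · simp only [Finset.sum_range_succ, Finset.sum_range_zero]
    linear_combination ((-1)) * hx + (1 + 1 * xx 5) * hp0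
  · simp only [Finset.sum_range_succ, Finset.sum_range_zero, Nat.reduceSub, Nat.cast_ofNat,
      Nat.cast_zero, Nat.cast_one]
    linear_combination ((-1)) * hx + ((-1) * xx 5 + (-1) * xx 5 ^ 2 + (-1) * xx 5 ^ 3) * hp0


/-- The cyclotomic units used for `p = 5`. -/
noncomputable def gam : Fin 1 → (𝓞 K)ˣ := ![cycUnit 5 hζ 2 coprime_2]

theorem gam_0 : gam hζ 0 = cycUnit 5 hζ 2 coprime_2 := rfl


theorem linearIndependent_fam : LinearIndependent (ZMod 5) (fam 5 hζ p_ne_two (gam hζ)) := by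
  rw [Fintype.linearIndependent_iff]
  intro g hg
  rw [Fintype.sum_option] at hg
  simp only [fam, Option.elim_none, Option.elim_some, Fin.sum_univ_one] at hg
  rw [gam_0, lamA_zeta, lamA_gamma1] at hg
  have hpoly : mkA 5 ((g none) • ((4 * X + 4 * X ^ 2 + 4 * X ^ 3) : (ZMod 5)[X]) + ((g (some 0)) • ((2 * X + 1 * X ^ 2 + 3 * X ^ 3) : (ZMod 5)[X]))) = 0 := by
    simp only [map_add, map_smul]
    exact hg
  have h13 : (5 : ZMod 5) = 0 := by decide
  have e0 := coeff_eq_zero_of_mkA_eq_zero 5 _ hpoly (k := 1) (by norm_num)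
  simp only [coeff_add, coeff_smul, coeff_ofNat_mul, coeff_X_pow, coeff_X, coeff_ofNat_zero, smul_eq_mul] at e0
  norm_num at e0
  have e1 := coeff_eq_zero_of_mkA_eq_zero 5 _ hpoly (k := 2) (by norm_num)
  simp only [coeff_add, coeff_smul, coeff_ofNat_mul, coeff_X_pow, coeff_X, coeff_ofNat_zero, smul_eq_mul] at e1
  norm_num at e1
  have hall : g none = 0 ∧ g (some 0) = 0 := by
    refine ⟨?_, ?_⟩
    · linear_combination (1) * e0 + (3) * e1 + (-((3) * g none + (1) * g (some 0))) * h13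
    · linear_combination (1) * e0 + (4) * e1 + (-((4) * g none + (1) * g (some 0))) * h13
  intro i
  obtain ⟨h0, h1⟩ := hall
  cases i with
  | none => exact h0
  | some j =>
    fin_cases j
    · exact h1

end P5

/-- **Kummer's lemma** for `p = 5`. -/
theorem kummer_lemma_five (K : Type*) [Field K] [NumberField K] [IsCyclotomicExtension {5} ℚ K]
    (u : (𝓞 K)ˣ) (h : ∃ n : ℤ, ((5 : ℕ) : 𝓞 K) ∣ (u : 𝓞 K) - n) : ∃ v : (𝓞 K)ˣ, u = v ^ 5 := by
  have hζ := IsCyclotomicExtension.zeta_spec 5 ℚ K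
  have hr : rank K = 1 := by
    rw [rank_eq 5 P5.p_ne_two]
  exact kummer_of_linearIndependent' 5 hζ P5.p_ne_two hr (P5.gam hζ)
    (P5.linearIndependent_fam hζ) u h

end Fermat.Agent.Lib.FltRegular.Kummer
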