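/-
Helper library (helper2): Kummer's lemma for `p = 7`. AUTO-GENERATED by tools/gen_kummer.py
(explicit inverses and logarithmic derivatives in `F_7[X]/(X^6)`, verified by `linear_combination`).
-/
import Mathlib
import Fermat.Agent.Lib.FltRegular.Kummer.Explicit

set_option autoImplicit false
set_option linter.unusedSimpArgs false
set_option linter.unusedSectionVars false

open Polynomial NumberField NumberField.Units

namespace Fermat.Agent.Lib.FltRegular.Kummer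

namespace P7

theorem prime_p : Nat.Prime 7 := by norm_num

instance fact_prime_p : Fact (Nat.Prime 7) := ⟨prime_p⟩

theorem p_ne_two : (7 : ℕ) ≠ 2 := by norm_num

theorem hx : (xx 7) ^ 6 = 0 := xx_pow 7

theorem hp0 : (7 : TR 7) = 0 := by
  have := natCast_self_TR 7
  exact_mod_cast this

variable {K : Type*} [Field K] [NumberField K] [IsCyclotomicExtension {7} ℚ K]
variable {ζ : K} (hζ : IsPrimitiveRoot ζ 7)


theorem lamA_zeta :
    lamA 7 hζ p_ne_two (zetaUnit 7 hζ) = mkA 7 (6 * X + 6 * X ^ 2 + 6 * X ^ 3 + 6 * X ^ 4 + 6 * X ^ 5) := by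
  have hD : mkA 7 (6 * X + 6 * X ^ 2 + 6 * X ^ 3 + 6 * X ^ 4 + 6 * X ^ 5) = (6 * xx 7 + 6 * xx 7 ^ 2 + 6 * xx 7 ^ 3 + 6 * xx 7 ^ 4 + 6 * xx 7 ^ 5) := by
    simp only [xx, map_add, map_mul, map_pow, map_ofNat, map_one]
  rw [hD]
  apply lamA_zetaUnit 7 hζ p_ne_two (w := (1 + 1 * xx 7 + 1 * xx 7 ^ 2 + 1 * xx 7 ^ 3 + 1 * xx 7 ^ 4 + 1 * xx 7 ^ 5))
  · linear_combination ((-1)) * hx + 0 * hp0
  · linear_combination ((-1)) * hx + ((-1) * xx 7 + (-1) * xx 7 ^ 2 + (-1) * xx 7 ^ 3 + (-1) * xx 7 ^ 4 + (-1) * xx 7 ^ 5) * hp0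


theorem coprime_2 : Nat.Coprime 2 7 := by norm_num

theorem lamA_gamma1 :
    lamA 7 hζ p_ne_two (cycUnit 7 hζ 2 coprime_2) = mkA 7 (3 * X + 5 * X ^ 2 + 6 * X ^ 3 + 3 * X ^ 4 + 5 * X ^ 5) := by
  have hD : mkA 7 (3 * X + 5 * X ^ 2 + 6 * X ^ 3 + 3 * X ^ 4 + 5 * X ^ 5) = (3 * xx 7 + 5 * xx 7 ^ 2 + 6 * xx 7 ^ 3 + 3 * xx 7 ^ 4 + 5 * xx 7 ^ 5) := by
    simp only [xx, map_add, map_mul, map_pow, map_ofNat, map_one]
  rw [hD]
  apply lamA_cycUnit 7 hζ p_ne_two 2 coprime_2 (w := (4 + 2 * xx 7 + 1 * xx 7 ^ 2 + 4 * xx 7 ^ 3 + 2 * xx 7 ^ 4 + 1 * xx 7 ^ 5))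
  · simp only [Finset.sum_range_succ, Finset.sum_range_zero]
    linear_combination ((-1)) * hx + (1 + 1 * xx 7 ^ 3) * hp0
  · simp only [Finset.sum_range_succ, Finset.sum_range_zero, Nat.reduceSub, Nat.cast_ofNat,
      Nat.cast_zero, Nat.cast_one]
    linear_combination ((-1)) * hx + ((-1) * xx 7 + (-1) * xx 7 ^ 2 + (-1) * xx 7 ^ 3 + (-1) * xx 7 ^ 4 + (-1) * xx 7 ^ 5) * hp0


theorem coprime_3 : Nat.Coprime 3 7 := by norm_num

theorem lamA_gamma2 :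
    lamA 7 hζ p_ne_two (cycUnit 7 hζ 3 coprime_3) = mkA 7 (6 * X + 2 * X ^ 2 + 4 * X ^ 4 + 4 * X ^ 5) := by
  have hD : mkA 7 (6 * X + 2 * X ^ 2 + 4 * X ^ 4 + 4 * X ^ 5) = (6 * xx 7 + 2 * xx 7 ^ 2 + 4 * xx 7 ^ 4 + 4 * xx 7 ^ 5) := by
    simp only [xx, map_add, map_mul, map_pow, map_ofNat, map_one]
  rw [hD]
  apply lamA_cycUnit 7 hζ p_ne_two 3 coprime_3 (w := (5 + 5 * xx 7 + 1 * xx 7 ^ 2 + 4 * xx 7 ^ 3 + 6 * xx 7 ^ 4))
  · simp only [Finset.sum_range_succ, Finset.sum_range_zero]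
    linear_combination (6) * hx + (2 + (-1) * xx 7 ^ 2 + 2 * xx 7 ^ 3 + 1 * xx 7 ^ 4 + (-2) * xx 7 ^ 5) * hp0
  · simp only [Finset.sum_range_succ, Finset.sum_range_zero, Nat.reduceSub, Nat.cast_ofNat,
      Nat.cast_zero, Nat.cast_one]
    linear_combination (12) * hx + ((-3) * xx 7 + (-1) * xx 7 ^ 2 + 1 * xx 7 ^ 3 + (-2) * xx 7 ^ 4 + (-2) * xx 7 ^ 5) * hp0


/-- The cyclotomic units used for `p = 7`. -/
noncomputable def gam : Fin 2 → (𝓞 K)ˣ := ![cycUnit 7 hζ 2 coprime_2, cycUnit 7 hζ 3 coprime_3]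

theorem gam_0 : gam hζ 0 = cycUnit 7 hζ 2 coprime_2 := rfl

theorem gam_1 : gam hζ 1 = cycUnit 7 hζ 3 coprime_3 := rfl


theorem linearIndependent_fam : LinearIndependent (ZMod 7) (fam 7 hζ p_ne_two (gam hζ)) := by
  rw [Fintype.linearIndependent_iff]
  intro g hg
  rw [Fintype.sum_option] at hg
  simp only [fam, Option.elim_none, Option.elim_some, Fin.sum_univ_two] at hg
  rw [gam_0, gam_1, lamA_zeta, lamA_gamma1, lamA_gamma2] at hg
  have hpoly : mkA 7 ((g none) • ((6 * X + 6 * X ^ 2 + 6 * X ^ 3 + 6 * X ^ 4 + 6 * X ^ 5) : (ZMod 7)[X]) + ((g (some 0)) • ((3 * X + 5 * X ^ 2 + 6 * X ^ 3 + 3 * X ^ 4 + 5 * X ^ 5) : (ZMod 7)[X]) + (g (some 1)) • ((6 * X + 2 * X ^ 2 + 4 * X ^ 4 + 4 * X ^ 5) : (ZMod 7)[X]))) = 0 := by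
    simp only [map_add, map_smul]
    exact hg
  have h13 : (7 : ZMod 7) = 0 := by decide
  have e0 := coeff_eq_zero_of_mkA_eq_zero 7 _ hpoly (k := 1) (by norm_num)
  simp only [coeff_add, coeff_smul, coeff_ofNat_mul, coeff_X_pow, coeff_X, coeff_ofNat_zero, smul_eq_mul] at e0
  norm_num at e0
  have e1 := coeff_eq_zero_of_mkA_eq_zero 7 _ hpoly (k := 2) (by norm_num)
  simp only [coeff_add, coeff_smul, coeff_ofNat_mul, coeff_X_pow, coeff_X, coeff_ofNat_zero, smul_eq_mul] at e1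
  norm_num at e1
  have e2 := coeff_eq_zero_of_mkA_eq_zero 7 _ hpoly (k := 4) (by norm_num)
  simp only [coeff_add, coeff_smul, coeff_ofNat_mul, coeff_X_pow, coeff_X, coeff_ofNat_zero, smul_eq_mul] at e2
  norm_num at e2
  have hall : g none = 0 ∧ g (some 0) = 0 ∧ g (some 1) = 0 := by
    refine ⟨?_, ?_, ?_⟩
    · linear_combination (0) * e0 + (5) * e1 + (1) * e2 + (-((5) * g none + (4) * g (some 0) + (2) * g (some 1))) * h13
    · linear_combination (4) * e0 + (4) * e1 + (6) * e2 + (-((12) * g none + (7) * g (some 0) + (8) * g (some 1))) * h13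
    · linear_combination (4) * e0 + (0) * e1 + (3) * e2 + (-((6) * g none + (3) * g (some 0) + (5) * g (some 1))) * h13
  intro i
  obtain ⟨h0, h1, h2⟩ := hall
  cases i with
  | none => exact h0
  | some j =>
    fin_cases j
    · exact h1
    · exact h2

end P7

/-- **Kummer's lemma** for `p = 7`. -/
theorem kummer_lemma_seven (K : Type*) [Field K] [NumberField K] [IsCyclotomicExtension {7} ℚ K]
    (u : (𝓞 K)ˣ) (h : ∃ n : ℤ, ((7 : ℕ) : 𝓞 K) ∣ (u : 𝓞 K) - n) : ∃ v : (𝓞 K)ˣ, u = v ^ 7 := by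
  have hζ := IsCyclotomicExtension.zeta_spec 7 ℚ K
  have hr : rank K = 2 := by
    rw [rank_eq 7 P7.p_ne_two]
  exact kummer_of_linearIndependent' 7 hζ P7.p_ne_two hr (P7.gam hζ)
    (P7.linearIndependent_fam hζ) u h

end Fermat.Agent.Lib.FltRegular.Kummer
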